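/-
MLT / [L1] case (C), ORDINARY case (helper9), part 4: **[G1] for the ordinary condition at `p`** (the Galois side):
`khg_main` = `ihg_main` of `Lib/Ihara/G1/Final.lean` with `X := IsOrdinaryAt p`; the local contract at `p` is
helper7's `mlto_contractLocP_ord` (`Lib/MLT/TWO/OrdTW.lean`: the strict ordinary contract of the TW library + the
case-C hypothesis `MltTWOOrdFirstOrderStrict p ρbar`), the base change is `mlto_isOrdinaryAt_baseChangeAlong`.
-/
import Mathlib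
import Fermat.Agent.Lib.Ihara.G1.Final
import Fermat.Agent.Lib.MLT.TWO.OrdTW

set_option autoImplicit false
set_option linter.unusedSectionVars false
set_option linter.unusedVariables false
set_option linter.style.haveILetI false

open Fermat.Agent.S53Lib Fermat.Agent.TW IsLocalRing GaloisRep ExtCitation MvPowerSeries

namespace Fermat.Agent.Ihara

local notation "GQ" => (AlgebraicClosure ℚ ≃ₐ[ℚ] AlgebraicClosure ℚ)

noncomputable section

attribute [local instance] dualNumberAlgebra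
attribute [local instance] isLocalHom_algebraMap_dualNumber

/-- **[G1], main theorem, ORDINARY case** (hypotheses of S56 + the case-C hypothesis
`MltTWOOrdFirstOrderStrict` of helper7) -/
theorem khg_main
    {𝒪 : Type} [CommRing 𝒪] [IsDomain 𝒪] [IsDiscreteValuationRing 𝒪]
    [IsAdicComplete (maximalIdeal 𝒪) 𝒪] [Finite (ResidueField 𝒪)]
    (p : ℕ) [Fact p.Prime] (hp2 : p ≠ 2) (hp𝒪 : (p : 𝒪) ∈ maximalIdeal 𝒪)
    (ρbar : ResidualGaloisRep (ResidueField 𝒪))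
    (habs : ρbar.IsAbsolutelyIrreducible)
    (hdet : (GaloisRepAdic.ofResidualGaloisRep ρbar).DetIsCyclotomic p)
    (hsplit : ∀ σ : AlgebraicClosure ℚ ≃ₐ[ℚ] AlgebraicClosure ℚ,
      ∃ α β : ResidueField 𝒪,
        LinearMap.charpoly (ρbar.ρ σ) = (Polynomial.X - Polynomial.C α) * (Polynomial.X - Polynomial.C β))
    (hTW : ∀ (K : Type) [Field K] [Algebra (ResidueField 𝒪) K]
      (G : Subgroup (AlgebraicClosure ℚ ≃ₐ[ℚ] AlgebraicClosure ℚ)), G.index = 2 →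
      ∀ V : Submodule K (ρbar.baseChange K).V,
        (∀ σ ∈ G, ∀ x ∈ V, (ρbar.baseChange K).ρ σ x ∈ V) → V = ⊥ ∨ V = ⊤)
    (hC : Fermat.Agent.MLT.MltTWOOrdFirstOrderStrict p ρbar)
    (b : Module.Basis (Fin 2) (ResidueField 𝒪) ρbar.V)
    (S Smin : Finset ℕ) (hpSmin : p ∈ Smin) (hSmin : Smin ⊆ S)
    (hmin : ∀ q : ℕ, q.Prime → q ≠ p → (q ∈ Smin ↔ ¬ ρbar.IsUnramifiedAt q))
    (Tc : Finset Nat.Primes) (hTcSmin : ∀ v ∈ Tc, (v : ℕ) ∉ Smin) (hTcS : ∀ v ∈ Tc, (v : ℕ) ∈ S)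
    (φv σv : Nat.Primes → GQ)
    (hφv : ∀ v ∈ Tc, (primeLocalPlace v).IsFrobeniusAt (φv v) (v : ℕ))
    (hσv : ∀ v ∈ Tc, IhgGen p (primeLocalPlace v) (σv v))
    (hscal : ∀ v ∈ Tc, ∃ c : ResidueField 𝒪, ρbar.ρ (φv v) = c • 1) :
    ∃ r : ℕ, ∀ n : ℕ, ∃ qv : Fin r → ℕ, Function.Injective qv ∧
      (∀ i, (qv i).Prime ∧ qv i ∉ S ∧ p ^ (n + 1) ∣ qv i - 1) ∧
      (∀ i, IsTWPrime ρbar (qv i)) ∧
      ∀ (A : Type) [CommRing A] [IsLocalRing A] [IsNoetherianRing A]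
        [IsAdicComplete (maximalIdeal A) A] [Algebra 𝒪 A] [IsLocalHom (algebraMap 𝒪 A)]
        (_hres : Function.Surjective (residue A ∘ algebraMap 𝒪 A))
        (rA : GQ →* Matrix (Fin 2) (Fin 2) A) (hcts : MatCts A rA)
        (_hstrict : IsStrictLift (𝒪 := 𝒪) (resMat ρbar b) rA)
        (_htype : twCond 𝒪 (fun _ _ _ ρ => ρ.IsOrdinaryAt p) p Smin
          (Smin ∪ ihgNat Tc ∪ Finset.univ.image qv) (ofMat rA hcts))
        (_htr : IhgTraceDet (𝒪 := 𝒪) rA)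
        (Λ : Type) [CommRing Λ] [IsLocalRing Λ] [IsAdicComplete (maximalIdeal Λ) Λ]
        [Algebra 𝒪 Λ] [Algebra Λ (IhgFrame A ↥Tc)] [IsScalarTower 𝒪 Λ (IhgFrame A ↥Tc)]
        [IsLocalHom (algebraMap Λ (IhgFrame A ↥Tc))]
        (Φ Sg : ↥Tc → Matrix (Fin 2) (Fin 2) Λ)
        (_hΦ : ∀ v : ↥Tc, ihgBeta A ↥Tc v * (Φ v).map (algebraMap Λ (IhgFrame A ↥Tc)) =
          (rA (φv v)).map (C (σ := ↥Tc × Fin 2 × Fin 2) (R := A)) * ihgBeta A ↥Tc v)
        (_hSg : ∀ v : ↥Tc, ihgBeta A ↥Tc v * (Sg v).map (algebraMap Λ (IhgFrame A ↥Tc)) =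
          (rA (σv v)).map (C (σ := ↥Tc × Fin 2 × Fin 2) (R := A)) * ihgBeta A ↥Tc v),
        ∃ γ : MvPowerSeries (Fin (r + Tc.card)) Λ →ₐ[Λ] IhgFrame A ↥Tc,
          Function.Surjective γ := by
  classical
  letI : Algebra (ZMod p) (ResidueField 𝒪) := tw_algebraZModResidue p hp𝒪
  have hp : p.Prime := Fact.out
  have hpk : (p : ResidueField 𝒪) = 0 := by
    rw [← map_natCast (residue 𝒪)]
    exact (residue_eq_zero_iff _).2 hp𝒪
  have h2 : (2 : ResidueField 𝒪) ≠ 0 := by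
    haveI : CharP (ResidueField 𝒪) p := (CharP.charP_iff_prime_eq_zero hp).2 hpk
    intro h
    have h' : ((2 : ℕ) : ResidueField 𝒪) = 0 := by exact_mod_cast h
    rw [CharP.cast_eq_zero_iff (ResidueField 𝒪) p] at h'
    have := Nat.le_of_dvd (by norm_num) h'
    have := hp.two_le
    omega
  have h3 : 3 ≤ p := by
    have := hp.two_le
    omega
  have hPerf : ContractPerf (tlTP p (ad0Rep ρbar)) :=
    tl_contractPerf p (ad0Rep ρbar) (isSmoothRep_ad0 ρbar)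
  -- the enlarged minimal set
  have hSmin' : Smin ∪ ihgNat Tc ⊆ S := by
    intro q hq
    rcases Finset.mem_union.1 hq with h | h
    · exact hSmin h
    · obtain ⟨v, hv, rfl⟩ := Finset.mem_image.1 h
      exact hTcS v hv
  have hne : ∀ l : Nat.Primes, (l : ℕ) ∉ Smin ∪ ihgNat Tc → (l : ℕ) ≠ p := fun l hl h =>
    hl (Finset.mem_union_left _ (h ▸ hpSmin))
  have hunrρ : ∀ l : Nat.Primes, (l : ℕ) ∉ Smin ∪ ihgNat Tc → ρbar.IsUnramifiedAt l := by
    intro l hl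
    by_contra hram
    exact hl (Finset.mem_union_left _ ((hmin l l.2 (hne l hl)).2 hram))
  exact ihg_main_of_contracts p ρbar b (fun _ _ _ ρ => ρ.IsOrdinaryAt p)
    (fun _ _ _ φ hφ _ ρ h => Fermat.Agent.MLT.mlto_isOrdinaryAt_baseChangeAlong φ hφ ρ h)
    hpk S Smin hpSmin hSmin hmin Tc hTcSmin φv σv hφv hσv hscal (tlTP p (ad0Rep ρbar))
    (tl_contractGW p (ad0Rep ρbar) (isSmoothRep_ad0 ρbar) hp2
      (fun S' hpS h₀ => tl_eulerFormula_tlPTc p (ad0Rep ρbar) (isSmoothRep_ad0 ρbar) hp2 S' hpS h₀))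
    (Fermat.Agent.MLT.mlto_contractLocP_ord p ρbar b hC
      (tw_contractLocP_ord' h3 h2 hdet (tk_R3 p h3 (k := ResidueField 𝒪)).1
        (tk_R3 p h3 (k := ResidueField 𝒪)).2))
    (tw_contractLocMin ρbar b p hpk h2 (fun q _ => tw_finrank_twUr_ad0_le ρbar q))
    (tw_contractLocTW p ρbar hpk)
    (tw_contractArch ρbar h2 (tw_det_complexConjugation ρbar p hdet))
    (tw_contractH0 ρbar h2 habs hsplit)
    (fun L => contractTW_of_contractSigma p ρbar
      (tw_contractSigma p ρbar hp2 hpk habs hdet hsplit hTW) (fun q => tw_localSurj_mod q)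
      S (Smin ∪ ihgNat Tc) hSmin' hunrρ (isSmoothRep_tateDual_ad0 p ρbar)
      (isUnramifiedOutsideRep_tateDual_ad0 p ρbar (primesOf (Smin ∪ ihgNat Tc))
        (fun q hq => hne q (fun h => hq (mem_primesOf.2 h)))
        (fun q hq => hunrρ q (fun h => hq (mem_primesOf.2 h)))) _ hPerf L)


end

end Fermat.Agent.Ihara
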