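/-
MLT / [L1] case (C), ORDINARY case (helper9), part 0: **transport of the ordinary shape**.

`GaloisRepAdic.IsOrdinaryAt ρ p` says: for every place `P | p` there is a line `L = A ∙ b 0` (`b` a basis) stable
under the decomposition group and such that inertia acts trivially on `V / L`.  This "shape" is transported

* along an equivariant linear equivalence (`khoShape_of_equiv`), and
* along a base change `B ⊗[A] -` (`khoShape_baseChange`);

consequences: `kho_isOrdinaryAt_of_isEquiv`, `kho_isOrdinaryAt_baseChangeAlong` (for `GaloisRepAdic`) and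
`kho_residual_ordinary` : if `ρbar` is ordinary at `p` and `r ≅ ρbar.baseChangeAlong f` then `r` is ordinary at `p`
(the hypothesis `hres` of S33 for the Hecke datum of `ihd_exists_datum`).
-/
import Mathlib
import Fermat.Prelude.Def_GaloisRep_LocalConditions
import Fermat.Prelude.Def_GaloisRep_Adic

set_option autoImplicit false
set_option linter.unusedSectionVars false
set_option linter.unusedVariables false
set_option linter.style.haveILetI false

open scoped TensorProduct

namespace Fermat.Agent.Ihara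

local notation "Qbar" => AlgebraicClosure ℚ
local notation "GQ" => (AlgebraicClosure ℚ ≃ₐ[ℚ] AlgebraicClosure ℚ)

section Shape

variable {A : Type} [CommRing A] {V : Type} [AddCommGroup V] [Module A V]

/-- the ordinary shape of an action `r` with respect to two sets `D ⊇ I` of group elements -/
def KhoShape (r : GQ → Module.End A V) (D I : Set GQ) : Prop :=
  ∃ L : Submodule A V,
    (∃ b : Module.Basis (Fin 2) A V, L = A ∙ b 0) ∧
    (∀ σ ∈ D, ∀ v ∈ L, r σ v ∈ L) ∧
    (∀ σ ∈ I, ∀ v : V, r σ v - v ∈ L)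

/-- transport along an equivariant linear equivalence -/
theorem khoShape_of_equiv {V' : Type} [AddCommGroup V'] [Module A V']
    (r : GQ → Module.End A V) (r' : GQ → Module.End A V') (e : V ≃ₗ[A] V')
    (he : ∀ σ x, e (r σ x) = r' σ (e x)) (D I : Set GQ) (h : KhoShape r D I) :
    KhoShape r' D I := by
  obtain ⟨L, ⟨b, hb⟩, hD, hI⟩ := h
  refine ⟨L.map (e : V →ₗ[A] V'), ⟨b.map e, ?_⟩, ?_, ?_⟩
  · rw [hb, Submodule.map_span, Set.image_singleton]
    rfl
  · rintro σ hσ _ ⟨v, hv, rfl⟩
    refine ⟨r σ v, hD σ hσ v hv, ?_⟩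
    exact he σ v
  · intro σ hσ v'
    refine ⟨r σ (e.symm v') - e.symm v', hI σ hσ _, ?_⟩
    show e (r σ (e.symm v') - e.symm v') = _
    rw [map_sub, he, LinearEquiv.apply_symm_apply]

/-- transport along a base change -/
theorem khoShape_baseChange {B : Type} [CommRing B] [Algebra A B]
    (r : GQ → Module.End A V) (D I : Set GQ) (h : KhoShape r D I) :
    KhoShape (fun σ => (r σ).baseChange B) D I := by
  obtain ⟨L, ⟨b, hb⟩, hD, hI⟩ := h
  have hmem : ∀ (c : B) (v : V), v ∈ L → c ⊗ₜ[A] v ∈ B ∙ ((1 : B) ⊗ₜ[A] b 0) := by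
    intro c v hv
    rw [hb, Submodule.mem_span_singleton] at hv
    obtain ⟨a, rfl⟩ := hv
    rw [Submodule.mem_span_singleton]
    refine ⟨c * algebraMap A B a, ?_⟩
    rw [TensorProduct.smul_tmul', smul_eq_mul, mul_one, ← TensorProduct.smul_tmul,
      Algebra.smul_def, mul_comm]
  refine ⟨B ∙ ((1 : B) ⊗ₜ[A] b 0), ⟨b.baseChange B, ?_⟩, ?_, ?_⟩
  · rw [Module.Basis.baseChange_apply]
  · intro σ hσ w hw
    rw [Submodule.mem_span_singleton] at hw
    obtain ⟨c, rfl⟩ := hw
    rw [map_smul, LinearMap.baseChange_tmul]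
    refine Submodule.smul_mem _ c (hmem 1 _ (hD σ hσ _ ?_))
    rw [hb]
    exact Submodule.mem_span_singleton_self _
  · intro σ hσ w
    induction w using TensorProduct.induction_on with
    | zero =>
      have h0 : (r σ).baseChange B (0 : B ⊗[A] V) - 0 = 0 := by
        rw [LinearMap.map_zero, sub_zero]
      rw [h0]
      exact Submodule.zero_mem _
    | tmul c v =>
      rw [LinearMap.baseChange_tmul, ← TensorProduct.tmul_sub]
      exact hmem c _ (hI σ hσ v)
    | add x y hx hy =>
      have h0 : (r σ).baseChange B (x + y) - (x + y)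
          = ((r σ).baseChange B x - x) + ((r σ).baseChange B y - y) := by
        rw [LinearMap.map_add, add_sub_add_comm]
      rw [h0]
      exact Submodule.add_mem _ hx hy

end Shape

section Adic

variable {A : Type} [CommRing A] [IsLocalRing A]

theorem kho_isOrdinaryAt_iff (ρ : GaloisRepAdic A) (p : ℕ) :
    ρ.IsOrdinaryAt p ↔ ∀ P : ValuationSubring Qbar, P.LiesOverPrime p →
      KhoShape (fun σ => ρ.ρ σ) (P.decompositionSubgroup ℚ : Set GQ)
        (P.inertiaSubgroupIn ℚ : Set GQ) := Iff.rfl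

/-- ordinarity is invariant under equivalence -/
theorem kho_isOrdinaryAt_of_isEquiv {ρ₁ ρ₂ : GaloisRepAdic A} (he : ρ₁.IsEquiv ρ₂) {p : ℕ}
    (h : ρ₁.IsOrdinaryAt p) : ρ₂.IsOrdinaryAt p := by
  obtain ⟨e⟩ := he
  intro P hP
  exact khoShape_of_equiv (fun σ => ρ₁.ρ σ) (fun σ => ρ₂.ρ σ) e.toLinearEquiv e.map_apply _ _
    (h P hP)

/-- ordinarity is preserved by base change -/
theorem kho_isOrdinaryAt_baseChangeAlong {B : Type} [CommRing B] [IsLocalRing B] (φ : A →+* B)
    (hφ : IsLocalHom φ) (ρ : GaloisRepAdic A) {p : ℕ} (h : ρ.IsOrdinaryAt p) :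
    (ρ.baseChangeAlong φ hφ).IsOrdinaryAt p := by
  letI : Algebra A B := φ.toAlgebra
  intro P hP
  exact khoShape_baseChange (B := B) (fun σ => ρ.ρ σ) _ _ (h P hP)

end Adic

section Residual

variable {k : Type} [Field k]

/-- **the residual hypothesis of S33**: if `ρbar` is ordinary at `p` and `r ≅ ρbar.baseChangeAlong f` then `r` is
ordinary at `p` -/
theorem kho_residual_ordinary {k' : Type} [Field k'] (f : k →+* k') (ρbar : ResidualGaloisRep k)
    (r : ResidualGaloisRep k') (he : r.IsEquiv (ρbar.baseChangeAlong f)) {p : ℕ}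
    (h : (GaloisRepAdic.ofResidualGaloisRep ρbar).IsOrdinaryAt p) :
    (GaloisRepAdic.ofResidualGaloisRep r).IsOrdinaryAt p := by
  obtain ⟨e⟩ := he
  letI : Algebra k k' := f.toAlgebra
  intro P hP
  have h1 : KhoShape (fun σ => (ρbar.baseChangeAlong f).ρ σ)
      (P.decompositionSubgroup ℚ : Set GQ) (P.inertiaSubgroupIn ℚ : Set GQ) :=
    khoShape_baseChange (B := k') (fun σ => ρbar.ρ σ) _ _ (h P hP)
  exact khoShape_of_equiv (fun σ => (ρbar.baseChangeAlong f).ρ σ) (fun σ => r.ρ σ)
    e.toLinearEquiv.symm (fun σ x => by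
      apply e.toLinearEquiv.injective
      rw [LinearEquiv.apply_symm_apply, e.map_apply, LinearEquiv.apply_symm_apply]) _ _ h1

end Residual

end Fermat.Agent.Ihara
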